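import Mathlib
import Fermat.Prelude.Def_GaloisRep_Flat
import Fermat.Prelude.Def_ModularCurve_X0ModL
import Fermat.Agent.S28.Defs

/-!
# S28 (B1): clearing `ℓ`-prime denominators (helper566)

For a polynomial `Q ∈ ℤ_(ℓ)[Y][X]` there is `c : ℕ` prime to `ℓ` and `Q' ∈ ℤ[Y][X]` with
`Q' = c · Q`.  If `Q` is monic then `Q'.leadingCoeff = C c`, and `Q'` kills (over `ℤ((q))`)
whatever `Q` kills over `ℤ_(ℓ)((q))`.  This is the shape of clause (B1) of `BasisData`.
-/

set_option autoImplicit false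

noncomputable section

namespace Fermat.Agent.S28.H566

open ModularCurve Polynomial

variable (ℓ : ℕ)

/-- The cast `ℤ → ℤ_(ℓ)` is injective. -/
theorem intCast_ratLocalizedAt_injective :
    Function.Injective (Int.castRingHom ↥(GaloisRep.ratLocalizedAt ℓ)) := by
  intro a b h
  have h2 := congrArg (Subtype.val) h
  simpa using h2

/-- Every element of `ℤ_(ℓ)` becomes an integer after multiplication by some `d` prime to
`ℓ`. -/
theorem exists_den_scalar (r : ↥(GaloisRep.ratLocalizedAt ℓ)) :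
    ∃ d : ℕ, d.Coprime ℓ ∧
      ((d : ℕ) : ↥(GaloisRep.ratLocalizedAt ℓ)) * r ∈
        (Int.castRingHom ↥(GaloisRep.ratLocalizedAt ℓ)).rangeS := by
  refine ⟨(r : ℚ).den, r.2, (r : ℚ).num, Subtype.ext ?_⟩
  push_cast
  exact (Rat.den_mul_eq_num (r : ℚ)).symm

theorem natCast_mem_lifts {A B : Type*} [CommRing A] [CommRing B] (f : A →+* B) (d : ℕ) :
    (C (d : B) : B[X]) ∈ Polynomial.lifts f :=
  ⟨C (d : A), by simp⟩

/-- Univariate denominator clearing. -/
theorem exists_den_poly (f : (↥(GaloisRep.ratLocalizedAt ℓ))[X]) :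
    ∃ d : ℕ, d.Coprime ℓ ∧
      C ((d : ℕ) : ↥(GaloisRep.ratLocalizedAt ℓ)) * f ∈
        Polynomial.lifts (Int.castRingHom ↥(GaloisRep.ratLocalizedAt ℓ)) := by
  induction f using Polynomial.induction_on' with
  | add p q hp hq =>
    obtain ⟨d, hd, hpd⟩ := hp
    obtain ⟨e, he, hqe⟩ := hq
    refine ⟨d * e, Nat.Coprime.mul_left hd he, ?_⟩
    have h : C ((((d * e : ℕ)) : ℕ) : ↥(GaloisRep.ratLocalizedAt ℓ)) * (p + q) =
        C ((e : ℕ) : ↥(GaloisRep.ratLocalizedAt ℓ)) *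
            (C ((d : ℕ) : ↥(GaloisRep.ratLocalizedAt ℓ)) * p) +
          C ((d : ℕ) : ↥(GaloisRep.ratLocalizedAt ℓ)) *
            (C ((e : ℕ) : ↥(GaloisRep.ratLocalizedAt ℓ)) * q) := by
      push_cast
      rw [C_mul]
      ring
    rw [h]
    exact add_mem (mul_mem (natCast_mem_lifts _ e) hpd) (mul_mem (natCast_mem_lifts _ d) hqe)
  | monomial n r =>
    obtain ⟨d, hd, m, hm⟩ := exists_den_scalar ℓ r
    refine ⟨d, hd, ?_⟩
    rw [C_mul_monomial]
    exact ⟨monomial n m, by rw [Polynomial.coe_mapRingHom, Polynomial.map_monomial, hm]⟩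

/-- Bivariate denominator clearing. -/
theorem exists_den_poly₂ (Q : (↥(GaloisRep.ratLocalizedAt ℓ))[X][X]) :
    ∃ d : ℕ, d.Coprime ℓ ∧
      C (C ((d : ℕ) : ↥(GaloisRep.ratLocalizedAt ℓ))) * Q ∈
        Polynomial.lifts
          (Polynomial.mapRingHom (Int.castRingHom ↥(GaloisRep.ratLocalizedAt ℓ))) := by
  have hC : ∀ d : ℕ, (C (C ((d : ℕ) : ↥(GaloisRep.ratLocalizedAt ℓ))) :
      (↥(GaloisRep.ratLocalizedAt ℓ))[X][X]) ∈
        Polynomial.lifts
          (Polynomial.mapRingHom (Int.castRingHom ↥(GaloisRep.ratLocalizedAt ℓ))) :=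
    fun d => ⟨C (C (d : ℤ)), by simp⟩
  induction Q using Polynomial.induction_on' with
  | add p q hp hq =>
    obtain ⟨d, hd, hpd⟩ := hp
    obtain ⟨e, he, hqe⟩ := hq
    refine ⟨d * e, Nat.Coprime.mul_left hd he, ?_⟩
    have h : C (C ((((d * e : ℕ)) : ℕ) : ↥(GaloisRep.ratLocalizedAt ℓ))) * (p + q) =
        C (C ((e : ℕ) : ↥(GaloisRep.ratLocalizedAt ℓ))) *
            (C (C ((d : ℕ) : ↥(GaloisRep.ratLocalizedAt ℓ))) * p) +
          C (C ((d : ℕ) : ↥(GaloisRep.ratLocalizedAt ℓ))) *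
            (C (C ((e : ℕ) : ↥(GaloisRep.ratLocalizedAt ℓ))) * q) := by
      push_cast
      rw [C_mul, C_mul]
      ring
    rw [h]
    exact add_mem (mul_mem (hC e) hpd) (mul_mem (hC d) hqe)
  | monomial n f =>
    obtain ⟨d, hd, g, hg⟩ := exists_den_poly ℓ f
    refine ⟨d, hd, ?_⟩
    rw [C_mul_monomial]
    exact ⟨monomial n g, by
      rw [Polynomial.coe_mapRingHom, Polynomial.map_monomial, hg]⟩

/-- **(B1), polynomial form.**  `c · Q` has integer coefficients for some `c` prime to `ℓ`. -/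
theorem exists_int_multiple (Q : (↥(GaloisRep.ratLocalizedAt ℓ))[X][X]) :
    ∃ (c : ℕ) (Q' : ℤ[X][X]), c.Coprime ℓ ∧
      Q'.map (Polynomial.mapRingHom (Int.castRingHom ↥(GaloisRep.ratLocalizedAt ℓ))) =
        C (C ((c : ℕ) : ↥(GaloisRep.ratLocalizedAt ℓ))) * Q := by
  obtain ⟨d, hd, Q', hQ'⟩ := exists_den_poly₂ ℓ Q
  exact ⟨d, Q', hd, hQ'⟩

theorem not_dvd_of_coprime [Fact ℓ.Prime] {c : ℕ} (hc : c.Coprime ℓ) : ¬ ℓ ∣ c := by
  intro h
  have := Nat.Coprime.eq_one_of_dvd hc.symm h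
  exact (Fact.out : ℓ.Prime).one_lt.ne' this

/-- If `Q` is monic, the integral multiple `Q' = c · Q` has leading coefficient `C c`. -/
theorem leadingCoeff_of_map_eq {Q : (↥(GaloisRep.ratLocalizedAt ℓ))[X][X]} (hQ : Q.Monic)
    {c : ℕ} {Q' : ℤ[X][X]}
    (h : Q'.map (Polynomial.mapRingHom (Int.castRingHom ↥(GaloisRep.ratLocalizedAt ℓ))) =
        C (C ((c : ℕ) : ↥(GaloisRep.ratLocalizedAt ℓ))) * Q) :
    Q'.leadingCoeff = C (c : ℤ) := by
  have hinj : Function.Injective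
      (Polynomial.mapRingHom (Int.castRingHom ↥(GaloisRep.ratLocalizedAt ℓ))) :=
    Polynomial.map_injective _ (intCast_ratLocalizedAt_injective ℓ)
  apply hinj
  rw [← Polynomial.leadingCoeff_map_of_injective hinj, h, Polynomial.leadingCoeff_mul_monic hQ,
    Polynomial.leadingCoeff_C]
  simp

section Eval

variable {A B : Type*} [CommRing A] [CommRing B]

/-- `evalAt` of the captain's `Defs.lean` is evaluation with constants `HahnSeries.C`. -/
theorem evalAt_eq (y : LaurentSeries A) :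
    (Fermat.Agent.S28.evalAt y : ℤ[X] →+* LaurentSeries A) =
      Polynomial.eval₂RingHom ((HahnSeries.C : A →+* LaurentSeries A).comp (Int.castRingHom A))
        y := by
  apply Polynomial.ringHom_ext
  · intro a
    simp [Fermat.Agent.S28.evalAt]
  · simp [Fermat.Agent.S28.evalAt]

/-- Base change of a bivariate evaluation along a coefficient map. -/
theorem coeffMap_eval₂_evalAt (f : A →+* B) (w y : LaurentSeries A) (Q' : ℤ[X][X]) :
    coeffMap f (Q'.eval₂ (Fermat.Agent.S28.evalAt w) y) =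
      Q'.eval₂ (Fermat.Agent.S28.evalAt (coeffMap f w)) (coeffMap f y) := by
  have h : (coeffMap f).comp (Polynomial.eval₂RingHom (Fermat.Agent.S28.evalAt w) y) =
      Polynomial.eval₂RingHom (Fermat.Agent.S28.evalAt (coeffMap f w)) (coeffMap f y) := by
    apply Polynomial.ringHom_ext
    · intro a
      have h2 : (coeffMap f).comp (Fermat.Agent.S28.evalAt w) =
          Fermat.Agent.S28.evalAt (coeffMap f w) := by
        apply Polynomial.ringHom_ext
        · intro n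
          simp [Fermat.Agent.S28.evalAt]
        · simp [Fermat.Agent.S28.evalAt]
      simpa using RingHom.congr_fun h2 a
    · simp
  exact RingHom.congr_fun h Q'

end Eval

/-- **(B1), evaluated form.**  Let `y ∈ ℤ((q))` and let `Q ∈ ℤ_(ℓ)[Y][X]` be monic with
`Q(j, y) = 0` in `ℤ_(ℓ)((q))` (constants via `HahnSeries.C`).  Then there are `c` prime to `ℓ`
and `Q' ∈ ℤ[Y][X]` with leading coefficient `C c` and `Q'(j, y) = 0` in `ℤ((q))`: exactly
clause (B1) of `Fermat.Agent.S28.BasisData`. -/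
theorem exists_clause_B1 [Fact ℓ.Prime] (y : LaurentSeries ℤ)
    (Q : (↥(GaloisRep.ratLocalizedAt ℓ))[X][X]) (hQ : Q.Monic)
    (hroot : Q.eval₂ (Polynomial.eval₂RingHom
        (HahnSeries.C : ↥(GaloisRep.ratLocalizedAt ℓ) →+*
          LaurentSeries ↥(GaloisRep.ratLocalizedAt ℓ))
        (jqModC ↥(GaloisRep.ratLocalizedAt ℓ)))
      (coeffMap (Int.castRingHom ↥(GaloisRep.ratLocalizedAt ℓ)) y) = 0) :
    ∃ (c : ℕ) (P : Polynomial (Polynomial ℤ)), ¬ ℓ ∣ c ∧
      P.leadingCoeff = Polynomial.C (c : ℤ) ∧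
      P.eval₂ (Fermat.Agent.S28.evalAt (jqModC ℤ)) y = 0 := by
  obtain ⟨c, Q', hc, hQ'⟩ := exists_int_multiple ℓ Q
  refine ⟨c, Q', not_dvd_of_coprime ℓ hc, leadingCoeff_of_map_eq ℓ hQ hQ', ?_⟩
  have hinj : Function.Injective
      (coeffMap (Int.castRingHom ↥(GaloisRep.ratLocalizedAt ℓ))) := by
    intro a b h
    ext n
    have := congrArg (fun x => x.coeff n) h
    simp only [coeffMap_coeff] at this
    exact intCast_ratLocalizedAt_injective ℓ this
  apply hinj
  rw [map_zero, coeffMap_eval₂_evalAt, coeffMap_jqModC]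
  have hcomp : (Fermat.Agent.S28.evalAt (jqModC ↥(GaloisRep.ratLocalizedAt ℓ)) :
      ℤ[X] →+* LaurentSeries ↥(GaloisRep.ratLocalizedAt ℓ)) =
      (Polynomial.eval₂RingHom
        (HahnSeries.C : ↥(GaloisRep.ratLocalizedAt ℓ) →+*
          LaurentSeries ↥(GaloisRep.ratLocalizedAt ℓ))
        (jqModC ↥(GaloisRep.ratLocalizedAt ℓ))).comp
        (Polynomial.mapRingHom (Int.castRingHom ↥(GaloisRep.ratLocalizedAt ℓ))) := by
    apply Polynomial.ringHom_ext
    · intro a
      simp [Fermat.Agent.S28.evalAt]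
    · simp [Fermat.Agent.S28.evalAt]
  rw [hcomp, ← Polynomial.eval₂_map, hQ', Polynomial.eval₂_mul, hroot, mul_zero]

end Fermat.Agent.S28.H566
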